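/-
Kummer project, package (A): helper lemmas for case I of Fermat's Last Theorem in the `p`-th
cyclotomic field when its ring of integers is a principal ideal domain.
-/
import Fermat.Agent.Kummer.Defs

set_option autoImplicit false

namespace Fermat.Agent.Kummer.CaseI

open NumberField Polynomial Finset

variable {p : ℕ} [hp : Fact p.Prime] {K : Type*} [Field K] [NumberField K]
  [IsCyclotomicExtension {p} ℚ K] {ζ : K}

/-- Every element of `𝓞 K` is a polynomial in `ζ`: induction principle. -/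
theorem adjoin_induction_toInteger (hζ : IsPrimitiveRoot ζ p) {P : 𝓞 K → Prop}
    (hz : P hζ.toInteger) (hint : ∀ n : ℤ, P (n : 𝓞 K))
    (hadd : ∀ x y, P x → P y → P (x + y)) (hmul : ∀ x y, P x → P y → P (x * y)) (x : 𝓞 K) :
    P x := by
  have hx : x ∈ Algebra.adjoin ℤ {hζ.toInteger} := by
    rw [IsCyclotomicExtension.Rat.adjoin_singleton_eq_top hζ]; trivial
  induction hx using Algebra.adjoin_induction with
  | mem x hx =>
    rw [Set.mem_singleton_iff] at hx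
    rw [hx]; exact hz
  | algebraMap r => simpa using hint r
  | add x y _ _ hx hy => exact hadd x y hx hy
  | mul x y _ _ hx hy => exact hmul x y hx hy

/-- Frobenius: every `p`-th power is congruent to a rational integer modulo `p`. -/
theorem exists_int_dvd_pow_sub (hζ : IsPrimitiveRoot ζ p) (x : 𝓞 K) :
    ∃ m : ℤ, (p : 𝓞 K) ∣ x ^ p - m := by
  induction x using adjoin_induction_toInteger hζ with
  | hz => 
    refine ⟨1, ?_⟩
    rw [hζ.toInteger_isPrimitiveRoot.pow_eq_one]; simp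
  | hint n => exact ⟨n ^ p, by simp⟩
  | hadd x y hx hy =>
    obtain ⟨m, hm⟩ := hx
    obtain ⟨n, hn⟩ := hy
    obtain ⟨r, hr⟩ := exists_add_pow_prime_eq hp.out x y
    refine ⟨m + n, ?_⟩
    rw [hr]
    have : x ^ p + y ^ p + (p : 𝓞 K) * x * y * r - ((m + n : ℤ) : 𝓞 K) =
        (x ^ p - m) + (y ^ p - n) + p * (x * y * r) := by push_cast; ring
    rw [this]
    exact dvd_add (dvd_add hm hn) (dvd_mul_right _ _)
  | hmul x y hx hy =>
    obtain ⟨m, hm⟩ := hx
    obtain ⟨n, hn⟩ := hy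
    refine ⟨m * n, ?_⟩
    have : (x * y) ^ p - ((m * n : ℤ) : 𝓞 K) = (x ^ p - m) * y ^ p + m * (y ^ p - n) := by
      push_cast; ring
    rw [this]
    exact dvd_add (dvd_mul_of_dvd_left hm _) (dvd_mul_of_dvd_right hn _)

/-- If `p` divides `∑_{i<p} f i ζ^i` then all the `f i` are congruent modulo `p`. -/
theorem dvd_sub_of_dvd_sum (hζ : IsPrimitiveRoot ζ p) (f : ℕ → ℤ)
    (h : (p : 𝓞 K) ∣ ∑ i ∈ range p, (f i : 𝓞 K) * hζ.toInteger ^ i) (i : ℕ) (hi : i < p) :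
    (p : ℤ) ∣ f i - f (p - 1) := by
  have hp1 : 1 < p := hp.out.one_lt
  have hzp := hζ.toInteger_isPrimitiveRoot
  have hgeom : ∑ i ∈ range p, hζ.toInteger ^ i = 0 := hzp.geom_sum_eq_zero hp1
  have hdim : hζ.integralPowerBasis.dim = p - 1 := by
    rw [hζ.integralPowerBasis_dim, Nat.totient_prime hp.out]
  obtain ⟨c, hc⟩ : ∃ c, c = f (p - 1) := ⟨_, rfl⟩
  rw [← hc]
  have key : ∑ i ∈ range p, (f i : 𝓞 K) * hζ.toInteger ^ i =
      ∑ j : Fin hζ.integralPowerBasis.dim, (f j - c) • hζ.integralPowerBasis.basis j := by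
    have h1 : ∑ i ∈ range p, (f i : 𝓞 K) * hζ.toInteger ^ i =
        ∑ i ∈ range p, ((f i - c : ℤ) : 𝓞 K) * hζ.toInteger ^ i := by
      have : ∑ i ∈ range p, ((f i - c : ℤ) : 𝓞 K) * hζ.toInteger ^ i =
          ∑ i ∈ range p, (f i : 𝓞 K) * hζ.toInteger ^ i -
            (c : 𝓞 K) * ∑ i ∈ range p, hζ.toInteger ^ i := by
        rw [Finset.mul_sum, ← Finset.sum_sub_distrib]
        refine Finset.sum_congr rfl fun i _ => ?_
        push_cast; ring
      rw [this, hgeom, mul_zero, sub_zero]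
    rw [h1]
    have h2 : p - 1 + 1 = p := by omega
    have h3 := Finset.sum_range_succ
      (fun i => ((f i - c : ℤ) : 𝓞 K) * hζ.toInteger ^ i) (p - 1)
    rw [h2] at h3
    rw [h3, ← hc, sub_self, Int.cast_zero, zero_mul, add_zero, ← hdim, Finset.sum_range]
    refine Finset.sum_congr rfl fun j _ => ?_
    rw [PowerBasis.coe_basis, hζ.integralPowerBasis_gen, zsmul_eq_mul]
  rcases Nat.lt_or_ge i (p - 1) with hi' | hi'
  · obtain ⟨y, hy⟩ := h
    have hy' : ∑ j : Fin hζ.integralPowerBasis.dim,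
        (f j - c) • hζ.integralPowerBasis.basis j = (p : ℤ) • y := by
      rw [← key, hy, zsmul_eq_mul]; simp
    have := congrArg (fun x => hζ.integralPowerBasis.basis.repr x ⟨i, hdim ▸ hi'⟩) hy'
    simp only [Module.Basis.repr_sum_self, map_smul, Finsupp.smul_apply, smul_eq_mul] at this
    exact ⟨_, this⟩
  · have : i = p - 1 := by omega
    subst this; simp [hc]

theorem dvd_sub_of_dvd_sum' (hζ : IsPrimitiveRoot ζ p) (f : ℕ → ℤ)
    (h : (p : 𝓞 K) ∣ ∑ i ∈ range p, (f i : 𝓞 K) * hζ.toInteger ^ i) (i j : ℕ) (hi : i < p)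
    (hj : j < p) : (p : ℤ) ∣ f i - f j := by
  have h1 := dvd_sub_of_dvd_sum hζ f h i hi
  have h2 := dvd_sub_of_dvd_sum hζ f h j hj
  have : f i - f j = (f i - f (p - 1)) - (f j - f (p - 1)) := by ring
  rw [this]
  exact dvd_sub h1 h2

/-- The final step of the classical argument for case I. -/
theorem dvd_of_dvd_four_terms (hζ : IsPrimitiveRoot ζ p) (hp5 : 5 ≤ p) (a b : ℤ) (k : ℕ)
    (h : (p : 𝓞 K) ∣ (a : 𝓞 K) + b * hζ.toInteger -
      (a * hζ.toInteger ^ k + b * hζ.toInteger ^ (k + (p - 1)))) :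
    (p : ℤ) ∣ a ∨ (p : ℤ) ∣ b ∨ (p : ℤ) ∣ a - b := by
  have hz1 : hζ.toInteger ^ p = 1 := hζ.toInteger_isPrimitiveRoot.pow_eq_one
  obtain ⟨k', hk'⟩ : ∃ k', k' = k % p := ⟨_, rfl⟩
  obtain ⟨k'', hk''⟩ : ∃ k'', k'' = (k + (p - 1)) % p := ⟨_, rfl⟩
  have hk'p : k' < p := hk' ▸ Nat.mod_lt _ (by omega)
  have hk''p : k'' < p := hk'' ▸ Nat.mod_lt _ (by omega)
  have hrel : (k' = 0 ∧ k'' = p - 1) ∨ (0 < k' ∧ k'' = k' - 1) := by
    rcases Nat.eq_zero_or_pos k' with h0 | h0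
    · left
      refine ⟨h0, ?_⟩
      rw [hk'', Nat.add_mod, ← hk', h0, zero_add, Nat.mod_mod, Nat.mod_eq_of_lt (by omega)]
    · right
      refine ⟨h0, ?_⟩
      have : k + (p - 1) = (k' - 1) + p * (k / p + 1) := by
        have := Nat.div_add_mod k p
        rw [← hk'] at this
        have h3 : p * (k / p + 1) = p * (k / p) + p := by ring
        omega
      rw [hk'', this, Nat.add_mul_mod_self_left, Nat.mod_eq_of_lt (by omega)]
  rw [pow_eq_pow_mod k hz1, pow_eq_pow_mod (k + (p - 1)) hz1, ← hk', ← hk''] at h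
  set f : ℕ → ℤ := fun i => (if i = 0 then a else 0) + (if i = 1 then b else 0) -
    (if i = k' then a else 0) - (if i = k'' then b else 0) with hf
  have hsum : ∑ i ∈ range p, (f i : 𝓞 K) * hζ.toInteger ^ i = (a : 𝓞 K) + b * hζ.toInteger -
      (a * hζ.toInteger ^ k' + b * hζ.toInteger ^ k'') := by
    simp only [hf, Int.cast_sub, Int.cast_add, Int.cast_ite, Int.cast_zero, sub_mul, add_mul,
      ite_mul, zero_mul, Finset.sum_sub_distrib, Finset.sum_add_distrib, Finset.sum_ite_eq',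
      Finset.mem_range]
    rw [if_pos (by omega), if_pos (by omega), if_pos hk'p, if_pos hk''p]
    ring
  rw [← hsum] at h
  have H := dvd_sub_of_dvd_sum' hζ f h
  rcases hrel with ⟨e1, e2⟩ | ⟨e1, e2⟩
  · -- k' = 0
    right; left
    have := H 1 0 (by omega) (by omega)
    simpa [hf, e1, e2, show (1 : ℕ) ≠ p - 1 by omega, show (0 : ℕ) ≠ p - 1 by omega] using this
  · rcases Nat.lt_or_ge k' 4 with h4 | h4
    · interval_cases k'
      · -- k' = 1, k'' = 0
        right; right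
        have := H 0 2 (by omega) (by omega)
        simpa [hf, e2] using this
      · -- k' = 2, k'' = 1
        left
        have := H 0 1 (by omega) (by omega)
        simpa [hf, e2] using this
      · -- k' = 3, k'' = 2
        left
        have := H 0 4 (by omega) (by omega)
        simpa [hf, e2] using this
    · left
      have := H 0 2 (by omega) (by omega)
      simpa [hf, e2, show (0 : ℕ) ≠ k' by omega, show (2 : ℕ) ≠ k' by omega,
        show (0 : ℕ) ≠ k' - 1 by omega, show (2 : ℕ) ≠ k' - 1 by omega] using this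

/-- An integer divisible by `p` in `𝓞 K` is divisible by `p` in `ℤ`. -/
theorem int_dvd_of_dvd_cast (hζ : IsPrimitiveRoot ζ p) {n : ℤ} (h : (p : 𝓞 K) ∣ (n : 𝓞 K)) :
    (p : ℤ) ∣ n :=
  (IsCyclotomicExtension.Rat.zeta_sub_one_dvd_intCast_iff' p hζ).mp
    (hζ.toInteger_sub_one_dvd_prime'.trans h)

/-- `p` is not a unit of `𝓞 K`. -/
theorem not_isUnit_prime (hζ : IsPrimitiveRoot ζ p) : ¬ IsUnit (p : 𝓞 K) := fun h =>
  hζ.zeta_sub_one_prime'.not_isUnit (isUnit_of_dvd_unit hζ.toInteger_sub_one_dvd_prime' h)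

open NumberField.IsCMField NumberField.Units in
/-- Complex conjugation on `𝓞 K`, and the unit lemma up to sign. -/
theorem exists_conj (hζ : IsPrimitiveRoot ζ p) (hp2 : 2 < p) :
    ∃ σ : 𝓞 K →+* 𝓞 K, σ hζ.toInteger = hζ.toInteger ^ (p - 1) ∧
      ∀ u : (𝓞 K)ˣ, ∃ k : ℕ, (u : 𝓞 K) = hζ.toInteger ^ k * σ u ∨
        (u : 𝓞 K) = - hζ.toInteger ^ k * σ u := by
  have : IsCMField K := IsCyclotomicExtension.Rat.isCMField K (S := {p}) ⟨p, rfl, hp2⟩
  have hzp := hζ.toInteger_isPrimitiveRoot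
  have hpos : 0 < p := hp.out.pos
  refine ⟨(ringOfIntegersComplexConj K : 𝓞 K →+* 𝓞 K), ?_, ?_⟩
  · -- conj ζ = ζ⁻¹
    have hunit : IsUnit hζ.toInteger := hzp.isUnit hpos.ne'
    have hmem : hunit.unit ∈ torsion K := by
      rw [torsion, CommGroup.mem_torsion, isOfFinOrder_iff_pow_eq_one]
      refine ⟨p, hpos, ?_⟩
      ext
      simp [hzp.pow_eq_one]
    have h1 := complexConj_torsion K ⟨hunit.unit, hmem⟩
    apply RingOfIntegers.ext
    simp only [RingHom.coe_coe, coe_ringOfIntegersComplexConj]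
    have h2 : ((hunit.unit : 𝓞 K) : K) = ζ := rfl
    simp only [h2] at h1
    rw [show ((hζ.toInteger : 𝓞 K) : K) = ζ from rfl, h1]
    have h3 : ζ * ζ ^ (p - 1) = 1 := by
      rw [← pow_succ', Nat.sub_add_cancel hpos, hζ.pow_eq_one]
    have h4 : ((hζ.toInteger ^ (p - 1) : 𝓞 K) : K) = ζ ^ (p - 1) := by
      simp
    rw [h4]
    exact inv_eq_of_mul_eq_one_right h3
  · intro u
    have hodd : ¬ Even p := by
      rw [Nat.not_even_iff_odd]
      exact hp.out.odd_of_ne_two (by omega)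
    have hord : torsionOrder K = 2 * p := by
      rw [IsCyclotomicExtension.Rat.torsionOrder_eq (n := p) (K := K), if_neg hodd]
    obtain ⟨t, ht⟩ : ∃ t : torsion K, t = unitsMulComplexConjInv K u := ⟨_, rfl⟩
    have ht1 : t ^ (2 * p) = 1 := by
      rw [← hord, torsionOrder]
      exact pow_card_eq_one'
    have ht2 : (((t : (𝓞 K)ˣ) : 𝓞 K) ^ p) ^ 2 = 1 := by
      have := congrArg (fun x : torsion K => ((x : (𝓞 K)ˣ) : 𝓞 K)) ht1
      simp only [SubmonoidClass.coe_pow, Units.val_pow_eq_pow_val, OneMemClass.coe_one,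
        Units.val_one] at this
      rw [← pow_mul, mul_comm]
      exact this
    have hu : (u : 𝓞 K) = ((t : (𝓞 K)ˣ) : 𝓞 K) * ringOfIntegersComplexConj K u := by
      have h1 : (t : (𝓞 K)ˣ) = u * (unitsComplexConj K u)⁻¹ := by
        rw [ht, unitsMulComplexConjInv_apply]
      have h2 : ((unitsComplexConj K u : (𝓞 K)ˣ) : 𝓞 K) = ringOfIntegersComplexConj K u := rfl
      rw [← h2, h1, Units.val_mul, mul_assoc, Units.inv_mul, mul_one]
    rcases sq_eq_one_iff.mp ht2 with h | h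
    · obtain ⟨k, -, hk⟩ := hzp.eq_pow_of_pow_eq_one h
      exact ⟨k, Or.inl (by rw [hk]; exact hu)⟩
    · have h' : (-((t : (𝓞 K)ˣ) : 𝓞 K)) ^ p = 1 := by
        rw [(Nat.not_even_iff_odd.mp hodd).neg_pow, h, neg_neg]
      obtain ⟨k, -, hk⟩ := hzp.eq_pow_of_pow_eq_one h'
      exact ⟨k, Or.inr (by rw [hk, neg_neg]; exact hu)⟩

/-- The sign in the unit lemma is `+`. -/
theorem unit_sign (hζ : IsPrimitiveRoot ζ p) (hp2 : 2 < p) (σ : 𝓞 K →+* 𝓞 K) (u : (𝓞 K)ˣ)
    (k : ℕ) (h : (u : 𝓞 K) = - hζ.toInteger ^ k * σ u) : False := by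
  have hodd : Odd p := hp.out.odd_of_ne_two (by omega)
  have hz1 : hζ.toInteger ^ p = 1 := hζ.toInteger_isPrimitiveRoot.pow_eq_one
  obtain ⟨m, hm⟩ := exists_int_dvd_pow_sub hζ (u : 𝓞 K)
  have hm' : (p : 𝓞 K) ∣ σ u ^ p - m := by
    have := map_dvd σ hm
    simpa using this
  have hup : (u : 𝓞 K) ^ p = - σ u ^ p := by
    conv_lhs => rw [h]
    rw [mul_pow, hodd.neg_pow, ← pow_mul, mul_comm k p, pow_mul, hz1, one_pow]
    ring
  have h2m : (p : 𝓞 K) ∣ ((2 * m : ℤ) : 𝓞 K) := by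
    have : ((2 * m : ℤ) : 𝓞 K) = - (((u : 𝓞 K) ^ p - m) + (σ u ^ p - m)) := by
      rw [hup]; push_cast; ring
    rw [this]
    exact (dvd_add hm hm').neg_right
  have h2m' : (p : ℤ) ∣ 2 * m := int_dvd_of_dvd_cast hζ h2m
  have hpm : (p : ℤ) ∣ m := by
    rcases (Nat.prime_iff_prime_int.mp hp.out).dvd_or_dvd h2m' with h2 | h2
    · exfalso
      have := Int.le_of_dvd (by norm_num) h2
      omega
    · exact h2
  have hpu : (p : 𝓞 K) ∣ (u : 𝓞 K) ^ p := by
    have : (u : 𝓞 K) ^ p = ((u : 𝓞 K) ^ p - m) + m := by ring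
    rw [this]
    refine dvd_add hm ?_
    obtain ⟨q, hq⟩ := hpm
    exact ⟨q, by rw [hq]; push_cast; ring⟩
  exact not_isUnit_prime hζ (isUnit_of_dvd_unit hpu (u.isUnit.pow p))

/-- Fermat's little theorem applied to a Fermat equation. -/
theorem dvd_add_sub_of_eq {a b c : ℤ} (H : a ^ p + b ^ p = c ^ p) : (p : ℤ) ∣ a + b - c := by
  have h := congrArg (Int.cast (R := ZMod p)) H
  push_cast at h
  rw [ZMod.pow_card, ZMod.pow_card, ZMod.pow_card] at h
  rw [← ZMod.intCast_zmod_eq_zero_iff_dvd]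
  push_cast
  rw [h, sub_self]

/-- `ζ - 1` does not divide `a + η b` when `p ∤ a + b`. -/
theorem not_zeta_sub_one_dvd (hζ : IsPrimitiveRoot ζ p) {a b : ℤ} (hab : ¬ (p : ℤ) ∣ a + b)
    {η : 𝓞 K} (hη : η ∈ nthRootsFinset p (1 : 𝓞 K)) :
    ¬ hζ.toInteger - 1 ∣ (a : 𝓞 K) + η * b := by
  intro h
  have h1 : hζ.toInteger - 1 ∣ η - 1 :=
    hζ.toInteger_isPrimitiveRoot.sub_one_dvd_sub hp.out hη (one_mem_nthRootsFinset hp.out.pos)
  have h2 : hζ.toInteger - 1 ∣ ((a + b : ℤ) : 𝓞 K) := by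
    have : ((a + b : ℤ) : 𝓞 K) = (a : 𝓞 K) + η * b - (η - 1) * b := by push_cast; ring
    rw [this]
    exact dvd_sub h (dvd_mul_of_dvd_left h1 _)
  exact hab ((IsCyclotomicExtension.Rat.zeta_sub_one_dvd_intCast_iff' p hζ).mp h2)

variable [IsPrincipalIdealRing (𝓞 K)]

/-- The factors `a + η b` are pairwise coprime. -/
theorem isCoprime_factors (hζ : IsPrimitiveRoot ζ p) {a b : ℤ} (hcop : IsCoprime a b)
    (hab : ¬ (p : ℤ) ∣ a + b) {η₁ η₂ : 𝓞 K} (hη₁ : η₁ ∈ nthRootsFinset p (1 : 𝓞 K))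
    (hη₂ : η₂ ∈ nthRootsFinset p (1 : 𝓞 K)) (hne : η₁ ≠ η₂) :
    IsCoprime ((a : 𝓞 K) + η₁ * b) ((a : 𝓞 K) + η₂ * b) := by
  have hprime : Prime (hζ.toInteger - 1) := hζ.zeta_sub_one_prime'
  have hassoc : Associated (hζ.toInteger - 1) (η₁ - η₂) :=
    hζ.toInteger_isPrimitiveRoot.nthRootsFinset_pairwise_associated_sub_one_sub_of_prime hp.out
      hη₁ hη₂ hne
  have h1 : IsCoprime (hζ.toInteger - 1) ((a : 𝓞 K) + η₁ * b) :=
    hprime.coprime_iff_not_dvd.mpr (not_zeta_sub_one_dvd hζ hab hη₁)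
  have h2 : IsCoprime (η₁ - η₂) ((a : 𝓞 K) + η₁ * b) := by
    obtain ⟨u, hu⟩ := hassoc
    rw [← hu]
    exact (isCoprime_mul_unit_right_left u.isUnit _ _).mpr h1
  obtain ⟨s, t, hst⟩ := hcop.map (Int.castRingHom (𝓞 K))
  obtain ⟨u, v, huv⟩ := h2
  simp only [eq_intCast] at hst
  exact ⟨u * (t - s * η₂) + v, u * (s * η₁ - t), by
    linear_combination (u * (η₁ - η₂)) * hst + huv⟩

/-- From `a ^ p + b ^ p = c ^ p` we get that `a + ζ b` is a unit times a `p`-th power. -/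
theorem exists_unit_mul_pow (hζ : IsPrimitiveRoot ζ p) (hp2 : p ≠ 2) {a b c : ℤ}
    (hcop : IsCoprime a b) (hab : ¬ (p : ℤ) ∣ a + b) (H : a ^ p + b ^ p = c ^ p) :
    ∃ (u : (𝓞 K)ˣ) (α : 𝓞 K), (a : 𝓞 K) + hζ.toInteger * b = u * α ^ p := by
  classical
  have hzp := hζ.toInteger_isPrimitiveRoot
  have hodd : Odd p := hp.out.odd_of_ne_two hp2
  have hprod := hzp.pow_add_pow_eq_prod_add_mul (a : 𝓞 K) (b : 𝓞 K) hodd
  have hzmem : hζ.toInteger ∈ nthRootsFinset p (1 : 𝓞 K) :=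
    (mem_nthRootsFinset hp.out.pos 1).mpr hzp.pow_eq_one
  rw [← Finset.mul_prod_erase _ _ hzmem] at hprod
  have hH : (a : 𝓞 K) ^ p + (b : 𝓞 K) ^ p = (c : 𝓞 K) ^ p := by exact_mod_cast congrArg (Int.cast (R := 𝓞 K)) H
  rw [hH] at hprod
  have hcop' : IsCoprime ((a : 𝓞 K) + hζ.toInteger * b)
      (∏ η ∈ (nthRootsFinset p (1 : 𝓞 K)).erase hζ.toInteger, ((a : 𝓞 K) + η * b)) := by
    refine IsCoprime.prod_right fun η hη => ?_
    rw [Finset.mem_erase] at hη
    exact isCoprime_factors hζ hcop hab hzmem hη.2 hη.1.symm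
  obtain ⟨d, u, hu⟩ := exists_associated_pow_of_mul_eq_pow' hcop' hprod.symm
  exact ⟨u, d, by rw [← hu]; ring⟩

/-- Case I under the extra assumption `a ≢ b mod p`. -/
theorem caseI_aux (p : ℕ) [hp : Fact p.Prime] (hp5 : 5 ≤ p) (K : Type*) [Field K] [NumberField K]
    [IsCyclotomicExtension {p} ℚ K] [IsPrincipalIdealRing (𝓞 K)] {a b c : ℤ}
    (hab : IsCoprime a b)
    (hpabc : ¬ (p : ℤ) ∣ a * b * c) (hne : ¬ (p : ℤ) ∣ a - b) : a ^ p + b ^ p ≠ c ^ p := by
  intro H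
  have hζ := IsCyclotomicExtension.zeta_spec p ℚ K
  have hpa : ¬ (p : ℤ) ∣ a := fun h => hpabc (h.mul_right b |>.mul_right c)
  have hpb : ¬ (p : ℤ) ∣ b := fun h => hpabc (h.mul_left a |>.mul_right c)
  have hpc : ¬ (p : ℤ) ∣ c := fun h => hpabc (h.mul_left (a * b))
  have hpab : ¬ (p : ℤ) ∣ a + b := by
    intro h
    apply hpc
    have := dvd_add_sub_of_eq H
    have h3 : c = (a + b) - (a + b - c) := by ring
    rw [h3]
    exact dvd_sub h this
  obtain ⟨u, α, hu⟩ := exists_unit_mul_pow hζ (by omega) hab hpab H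
  obtain ⟨σ, hσz, hσu⟩ := exists_conj hζ (by omega : 2 < p)
  obtain ⟨m, hm⟩ := exists_int_dvd_pow_sub hζ α
  obtain ⟨k, hk | hk⟩ := hσu u
  swap
  · exact unit_sign hζ (by omega) σ u k hk
  have hm' : (p : 𝓞 K) ∣ σ α ^ p - m := by
    have := map_dvd σ hm
    simpa using this
  have hu' : (a : 𝓞 K) + hζ.toInteger ^ (p - 1) * b = σ u * σ α ^ p := by
    have := congrArg σ hu
    simpa [hσz] using this
  have key : (a : 𝓞 K) + b * hζ.toInteger -
      (a * hζ.toInteger ^ k + b * hζ.toInteger ^ (k + (p - 1))) =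
      u * ((α ^ p - m) - (σ α ^ p - m)) := by
    have e1 : (a : 𝓞 K) + b * hζ.toInteger = u * α ^ p := by rw [← hu]; ring
    have e2 : (a : 𝓞 K) * hζ.toInteger ^ k + b * hζ.toInteger ^ (k + (p - 1)) =
        u * σ α ^ p := by
      conv_rhs => rw [hk]
      rw [mul_assoc, ← hu', pow_add]
      ring
    rw [e1, e2]; ring
  have hdvd : (p : 𝓞 K) ∣ (a : 𝓞 K) + b * hζ.toInteger -
      (a * hζ.toInteger ^ k + b * hζ.toInteger ^ (k + (p - 1))) := by
    rw [key]
    exact dvd_mul_of_dvd_right (dvd_sub hm hm') _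
  rcases dvd_of_dvd_four_terms hζ hp5 a b k hdvd with h | h | h
  · exact hpa h
  · exact hpb h
  · exact hne h

end Fermat.Agent.Kummer.CaseI
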